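import Fermat.Agent.Lib.Cheb.SpecQ2
import Fermat.Agent.Lib.Cheb.H221.CycAlg
import Fermat.Agent.Lib.Cheb.H583.CycAlgBase
import Fermat.Agent.Lib.Cheb.H764.Count

/-!
# CHEB Tier 3 (CHEB-Q), piece Q-ALG (row-lead helper56)

`cycCount : SpecQ.CycCountStatement`: in the situation of `Spec.CycStatement`, for `p ≡ a mod m`
outside a finite set, the degree-one primes of `L^⟨g⟩` above `p` correspond to the primes of `L`
with Frobenius `g`, and their number `c(p)` satisfies `c(p) · ord g · |C_g| ≤ |G|`.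
-/

set_option autoImplicit false
set_option linter.unusedSectionVars false
set_option linter.unusedVariables false

open NumberField
open scoped Pointwise

namespace Fermat.Agent.Lib.Cheb.H56

section

variable {L : Type} [Field L] [NumberField L] [IsGalois ℚ L]

lemma under_eq_span_of_mem {p : ℕ} (hp : p.Prime) {P : Ideal (𝓞 L)} (hP : P.IsPrime)
    (hpP : (p : 𝓞 L) ∈ P) : P.under ℤ = Ideal.span {(p : ℤ)} := by
  have : Fact p.Prime := ⟨hp⟩
  have hmax := Int.ideal_span_isMaximal_of_prime p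
  have hle : Ideal.span {(p : ℤ)} ≤ P.under ℤ := by
    rw [Ideal.span_le, Set.singleton_subset_iff]
    show algebraMap ℤ (𝓞 L) (p : ℤ) ∈ P
    simpa using hpP
  have hne : P.under ℤ ≠ ⊤ := (Ideal.IsPrime.under ℤ P).ne_top
  exact (hmax.eq_of_le hne hle).symm

/-- The orbit count: primes with Frobenius `g` and decomposition group `⟨g⟩`. -/
theorem card_mul_card_mul_card_le (g : L ≃ₐ[ℚ] L) (X : Set (Ideal (𝓞 L))) {p : ℕ} (hp : p.Prime)
    (hX : ∀ P ∈ X, P.IsPrime ∧ (p : 𝓞 L) ∈ P ∧ Spec.InertiaTrivial L P ∧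
      IsArithFrobAt ℤ g P ∧ Spec.decomp L P = Subgroup.zpowers g) :
    Nat.card X * Nat.card (Subgroup.zpowers g) * Nat.card (conjugatesOf g) ≤
      Nat.card (L ≃ₐ[ℚ] L) := by
  classical
  by_cases hne : X.Nonempty
  swap
  · have : IsEmpty X := by
      rw [Set.not_nonempty_iff_eq_empty] at hne
      rw [hne]
      infer_instance
    rw [Nat.card_of_isEmpty, zero_mul, zero_mul]
    exact Nat.zero_le _
  obtain ⟨P₀, hP₀⟩ := hne
  have hex : ∀ P : X, ∃ h : L ≃ₐ[ℚ] L, h • P₀ = P.1 ∧ h * g * h⁻¹ = g := by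
    rintro ⟨P, hP⟩
    have := (hX P₀ hP₀).1
    have := (hX P hP).1
    have hunder : P₀.under ℤ = P.under ℤ := by
      rw [under_eq_span_of_mem hp (hX P₀ hP₀).1 (hX P₀ hP₀).2.1,
        under_eq_span_of_mem hp (hX P hP).1 (hX P hP).2.1]
    obtain ⟨h, hh⟩ := Algebra.IsInvariant.exists_smul_of_under_eq ℤ (𝓞 L) (L ≃ₐ[ℚ] L) P₀ P hunder
    refine ⟨h, hh.symm, ?_⟩
    have h1 := ((hX P₀ hP₀).2.2.2.1).conj h
    rw [← hh] at h1
    exact H583.frob_unique (hX P hP).2.2.1 h1 (hX P hP).2.2.2.1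
  choose hP hP1 hP2 using hex
  have hkex : ∀ c : conjugatesOf g, ∃ k : L ≃ₐ[ℚ] L, k * g * k⁻¹ = c.1 :=
    fun c => isConj_iff.mp c.2
  choose k hk using hkex
  have hz : ∀ z : Subgroup.zpowers g, (z : L ≃ₐ[ℚ] L) * g * (z : L ≃ₐ[ℚ] L)⁻¹ = g := by
    rintro ⟨z, hz⟩
    obtain ⟨n, rfl⟩ := Subgroup.mem_zpowers_iff.mp hz
    show g ^ n * g * (g ^ n)⁻¹ = g
    have hcomm : Commute (g ^ n) g := (Commute.refl g).zpow_left n
    rw [hcomm.eq, mul_assoc, mul_inv_cancel, mul_one]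
  have hzP₀ : ∀ z : Subgroup.zpowers g, (z : L ≃ₐ[ℚ] L) • P₀ = P₀ := by
    intro z
    have : (z : L ≃ₐ[ℚ] L) ∈ Spec.decomp L P₀ := by
      rw [(hX P₀ hP₀).2.2.2.2]
      exact z.2
    exact MulAction.mem_stabilizer_iff.mp this
  have hconj : ∀ (P : X) (z : Subgroup.zpowers g) (c : conjugatesOf g),
      (k c * hP P * (z : L ≃ₐ[ℚ] L)) * g * (k c * hP P * (z : L ≃ₐ[ℚ] L))⁻¹ = c.1 := by
    intro P z c
    calc (k c * hP P * (z : L ≃ₐ[ℚ] L)) * g * (k c * hP P * (z : L ≃ₐ[ℚ] L))⁻¹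
        = k c * (hP P * ((z : L ≃ₐ[ℚ] L) * g * (z : L ≃ₐ[ℚ] L)⁻¹) * (hP P)⁻¹) * (k c)⁻¹ := by
          group
      _ = k c * (hP P * g * (hP P)⁻¹) * (k c)⁻¹ := by rw [hz z]
      _ = k c * g * (k c)⁻¹ := by rw [hP2 P]
      _ = c.1 := hk c
  let Ψ : (X × Subgroup.zpowers g) × conjugatesOf g → (L ≃ₐ[ℚ] L) :=
    fun x => k x.2 * hP x.1.1 * (x.1.2 : L ≃ₐ[ℚ] L)
  have hinj : Function.Injective Ψ := by
    rintro ⟨⟨P, z⟩, c⟩ ⟨⟨P', z'⟩, c'⟩ hΨ
    have hΨ' : k c * hP P * (z : L ≃ₐ[ℚ] L) = k c' * hP P' * (z' : L ≃ₐ[ℚ] L) := hΨ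
    have hc : c = c' := Subtype.ext (by rw [← hconj P z c, ← hconj P' z' c', hΨ'])
    subst hc
    have h2 : hP P * (z : L ≃ₐ[ℚ] L) = hP P' * (z' : L ≃ₐ[ℚ] L) := by
      rw [mul_assoc, mul_assoc] at hΨ'
      exact mul_left_cancel hΨ'
    have hPP' : P = P' := by
      apply Subtype.ext
      have h3 := congrArg (fun x : L ≃ₐ[ℚ] L => x • P₀) h2
      simp only [mul_smul, hzP₀, hP1] at h3
      exact h3
    subst hPP'
    have hzz' : z = z' := Subtype.ext (mul_left_cancel h2)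
    rw [hzz']
  have hle := Nat.card_le_card_of_injective Ψ hinj
  rw [Nat.card_prod, Nat.card_prod] at hle
  exact hle

/-- **Q-ALG** from the black boxes (A) and (D). -/
theorem cycCount_of (hA : Spec.CountStatement) (hD : Spec.FrobStatement) :
    SpecQ.CycCountStatement := by
  intro L _ _ _ m _ ζ hζ g hg
  classical
  obtain ⟨B1, hB1⟩ := hA L (Subgroup.zpowers g)
  obtain ⟨B3, hB3⟩ := hD L
  refine ⟨B1 ∪ B3 ∪ m.primeFactors, fun p hp hpB hpa hc => ?_⟩
  simp only [Finset.mem_union, not_or] at hpB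
  obtain ⟨⟨hp1, hp3⟩, hp4⟩ := hpB
  have hpm : ¬ p ∣ m := fun h => hp4 (Nat.mem_primeFactors.mpr ⟨hp, h, NeZero.ne m⟩)
  have key : ∀ P ∈ Spec.primesLe L (Subgroup.zpowers g) p, P.IsPrime ∧ (p : 𝓞 L) ∈ P ∧
      Spec.InertiaTrivial L P ∧ IsArithFrobAt ℤ g P ∧
      Spec.decomp L P = Subgroup.zpowers g := by
    intro P hP
    obtain ⟨hI, τ, hτ, hDP, hτg, hτp⟩ := H221.exists_frob_of_mem_primesLe hζ hB3 hp hp3 hpm hP
    have hτeq : τ = g := by
      apply H221.eq_of_mem_zpowers hζ hg hτg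
      ext
      rw [hτp, hpa]
    rw [hτeq] at hτ hDP
    exact ⟨hP.1, hP.2.1, hI, hτ, hDP⟩
  have hfin : Finite (Spec.primesLe L (Subgroup.zpowers g) p) :=
    (H221.primesLe_finite L _ hp).to_subtype
  have hcount : Spec.primeCount (IntermediateField.fixedField (Subgroup.zpowers g)) p =
      Nat.card (Spec.primesLe L (Subgroup.zpowers g) p) := by
    have h1 := hB1 p hp hp1
    have h2 : Spec.decompWeight L (Subgroup.zpowers g) p =
        Nat.card (Spec.primesLe L (Subgroup.zpowers g) p) * Nat.card (Subgroup.zpowers g) := by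
      unfold Spec.decompWeight
      have : Fintype (Spec.primesLe L (Subgroup.zpowers g) p) := Fintype.ofFinite _
      rw [finsum_eq_sum_of_fintype]
      rw [Finset.sum_congr rfl (fun P _ => by rw [(key P.1 P.2).2.2.2.2])]
      rw [Finset.sum_const, Finset.card_univ, smul_eq_mul, ← Nat.card_eq_fintype_card]
    rw [h2] at h1
    exact Nat.eq_of_mul_eq_mul_right Nat.card_pos h1
  constructor
  · have hne : Nat.card (Spec.primesLe L (Subgroup.zpowers g) p) ≠ 0 := hcount ▸ hc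
    have hnonempty : Nonempty (Spec.primesLe L (Subgroup.zpowers g) p) := by
      by_contra hemp
      rw [not_nonempty_iff] at hemp
      exact hne Nat.card_of_isEmpty
    obtain ⟨P, hP⟩ := hnonempty
    exact ⟨hp, P, (key P hP).1, (key P hP).2.1, (key P hP).2.2.1, (key P hP).2.2.2.1⟩
  · rw [hcount, ← Nat.card_zpowers]
    exact card_mul_card_mul_card_le g _ hp key

/-- **Q-ALG**, unconditional. -/
theorem cycCount : SpecQ.CycCountStatement :=
  cycCount_of H764.count H943.frobStatement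

end

end Fermat.Agent.Lib.Cheb.H56
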