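import Mathlib
import Fermat.Agent.Lib.Cheb.H221.LogBound

/-!
# CHEB Tier 2, piece ABS of CYC (abstract Dirichlet lemma), copy of row-lead helper56

Statement = `H221.AbstractDirichletStatement` (helper221's skeleton), unfolded.
-/

set_option autoImplicit false
set_option linter.unusedSectionVars false
set_option linter.unusedVariables false

open Filter Topology

namespace Fermat.Agent.Lib.Cheb.H56

noncomputable section

variable {m : ℕ} [NeZero m]

/-- the weight `c p * p ^ (-s)` -/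
def wt (c : Nat.Primes → ℝ) (s : ℝ) (p : Nat.Primes) : ℝ := c p * ((p : ℕ) : ℝ) ^ (-s)

/-- the twisted sum `∑ χ(p) c(p) p^(-s)` -/
def twSum (c : Nat.Primes → ℝ) (χ : DirichletCharacter ℂ m) (s : ℝ) : ℂ :=
  ∑' p : Nat.Primes, χ ((p : ℕ) : ZMod m) * ((wt c s p : ℝ) : ℂ)

/-- the sum over the class `a` -/
def clSum (c : Nat.Primes → ℝ) (a : ZMod m) (s : ℝ) : ℝ :=
  ∑' p : Nat.Primes, if ((p : ℕ) : ZMod m) = a then wt c s p else 0

section basic

variable {c : Nat.Primes → ℝ} (hc : ∀ p, 0 ≤ c p) {s : ℝ}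

include hc

lemma wt_nonneg (p : Nat.Primes) : 0 ≤ wt c s p :=
  mul_nonneg (hc p) (Real.rpow_nonneg (Nat.cast_nonneg _) _)

lemma wt_le (hs : 0 ≤ s) (p : Nat.Primes) : wt c s p ≤ c p := by
  have h1 : (1 : ℝ) ≤ ((p : ℕ) : ℝ) := by exact_mod_cast p.2.one_lt.le
  have h2 : ((p : ℕ) : ℝ) ^ (-s) ≤ 1 := Real.rpow_le_one_of_one_le_of_nonpos h1 (by linarith)
  calc wt c s p = c p * ((p : ℕ) : ℝ) ^ (-s) := rfl
    _ ≤ c p * 1 := mul_le_mul_of_nonneg_left h2 (hc p)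
    _ = c p := mul_one _

lemma summable_twist (hw : Summable (wt c s)) (f : Nat.Primes → ℂ) (hf : ∀ p, ‖f p‖ ≤ 1) :
    Summable (fun p => f p * ((wt c s p : ℝ) : ℂ)) := by
  refine Summable.of_norm_bounded hw fun p => ?_
  rw [norm_mul, Complex.norm_real, Real.norm_of_nonneg (wt_nonneg hc p)]
  calc ‖f p‖ * wt c s p ≤ 1 * wt c s p := mul_le_mul_of_nonneg_right (hf p) (wt_nonneg hc p)
    _ = wt c s p := one_mul _

lemma summable_class (hw : Summable (wt c s)) (a : ZMod m) :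
    Summable (fun p : Nat.Primes => if ((p : ℕ) : ZMod m) = a then wt c s p else 0) := by
  refine Summable.of_nonneg_of_le (fun p => ?_) (fun p => ?_) hw
  · split_ifs
    · exact wt_nonneg hc p
    · exact le_rfl
  · split_ifs
    · exact le_rfl
    · exact wt_nonneg hc p

lemma clSum_nonneg (a : ZMod m) : 0 ≤ clSum c a s :=
  tsum_nonneg fun p => by
    split_ifs
    · exact wt_nonneg hc p
    · exact le_rfl

/-- Orthogonality: `∑_χ χ(a⁻¹) T_χ = φ(m) D_a`. -/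
lemma sum_inv_mul_twSum (hw : Summable (wt c s)) (a : (ZMod m)ˣ) :
    ∑ χ : DirichletCharacter ℂ m, χ ((a : ZMod m)⁻¹) * twSum c χ s =
      (m.totient : ℂ) * ((clSum c (a : ZMod m) s : ℝ) : ℂ) := by
  have hsum : ∀ χ : DirichletCharacter ℂ m, Summable (fun p : Nat.Primes =>
      χ ((a : ZMod m)⁻¹) * (χ ((p : ℕ) : ZMod m) * ((wt c s p : ℝ) : ℂ))) := fun χ =>
    (summable_twist hc hw _ (fun p => DirichletCharacter.norm_le_one χ _)).mul_left _
  calc ∑ χ : DirichletCharacter ℂ m, χ ((a : ZMod m)⁻¹) * twSum c χ s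
      = ∑ χ : DirichletCharacter ℂ m, ∑' p : Nat.Primes,
          χ ((a : ZMod m)⁻¹) * (χ ((p : ℕ) : ZMod m) * ((wt c s p : ℝ) : ℂ)) := by
        refine Finset.sum_congr rfl fun χ _ => ?_
        rw [twSum, tsum_mul_left]
    _ = ∑' p : Nat.Primes, ∑ χ : DirichletCharacter ℂ m,
          χ ((a : ZMod m)⁻¹) * (χ ((p : ℕ) : ZMod m) * ((wt c s p : ℝ) : ℂ)) :=
        (Summable.tsum_finsetSum fun χ _ => hsum χ).symm
    _ = ∑' p : Nat.Primes, (m.totient : ℂ) *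
          (((if ((p : ℕ) : ZMod m) = (a : ZMod m) then wt c s p else 0 : ℝ)) : ℂ) := by
        refine tsum_congr fun p => ?_
        have h := DirichletCharacter.sum_char_inv_mul_char_eq ℂ (a.isUnit) ((p : ℕ) : ZMod m)
        calc ∑ χ : DirichletCharacter ℂ m,
              χ ((a : ZMod m)⁻¹) * (χ ((p : ℕ) : ZMod m) * ((wt c s p : ℝ) : ℂ))
            = (∑ χ : DirichletCharacter ℂ m, χ ((a : ZMod m)⁻¹) * χ ((p : ℕ) : ZMod m)) *
                ((wt c s p : ℝ) : ℂ) := by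
              rw [Finset.sum_mul]
              exact Finset.sum_congr rfl fun χ _ => (mul_assoc _ _ _).symm
          _ = _ := by
              rw [h]
              by_cases hpa : ((p : ℕ) : ZMod m) = (a : ZMod m)
              · rw [if_pos hpa.symm, if_pos hpa]
              · rw [if_neg (fun h => hpa h.symm), if_neg hpa]
                simp
    _ = (m.totient : ℂ) * ((clSum c (a : ZMod m) s : ℝ) : ℂ) := by
        rw [tsum_mul_left, clSum, Complex.ofReal_tsum]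

omit hc in
lemma char_one_inv (χ : DirichletCharacter ℂ m) :
    χ ((((1 : (ZMod m)ˣ) : (ZMod m)ˣ) : ZMod m)⁻¹) = 1 := by
  rw [ZMod.inv_coe_unit, inv_one, Units.val_one, map_one]

/-- Orthogonality at `a = 1`. -/
lemma sum_twSum (hw : Summable (wt c s)) :
    ∑ χ : DirichletCharacter ℂ m, twSum c χ s =
      (m.totient : ℂ) * ((clSum c (1 : ZMod m) s : ℝ) : ℂ) := by
  have h1 := sum_inv_mul_twSum hc hw (1 : (ZMod m)ˣ)
  rw [Finset.sum_congr rfl (fun χ _ => by rw [char_one_inv, one_mul])] at h1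
  rw [h1, Units.val_one]

end basic


/-! ### Characters and a subgroup -/

section subgroup

open scoped Classical

variable (A : Subgroup (ZMod m)ˣ) [Fintype A]

/-- `χ` is nontrivial on `A` -/
def IsNT (χ : DirichletCharacter ℂ m) : Prop :=
  ∃ u ∈ A, χ ((u : (ZMod m)ˣ) : ZMod m) ≠ 1

lemma apply_eq_one_of_not_isNT {χ : DirichletCharacter ℂ m} (h : ¬ IsNT A χ) {u : (ZMod m)ˣ}
    (hu : u ∈ A) : χ ((u : (ZMod m)ˣ) : ZMod m) = 1 := by
  by_contra hne
  exact h ⟨u, hu, hne⟩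

lemma apply_inv_eq_one_of_not_isNT {χ : DirichletCharacter ℂ m} (h : ¬ IsNT A χ)
    {u : (ZMod m)ˣ} (hu : u ∈ A) : χ (((u : (ZMod m)ˣ) : ZMod m)⁻¹) = 1 := by
  rw [ZMod.inv_coe_unit]
  exact apply_eq_one_of_not_isNT A h (A.inv_mem hu)

/-- Orthogonality on the subgroup. -/
lemma sum_inv_subgroup (χ : DirichletCharacter ℂ m) :
    ∑ b : A, χ (((b : (ZMod m)ˣ) : ZMod m)⁻¹) = if IsNT A χ then 0 else (Fintype.card A : ℂ) := by
  split_ifs with h
  · obtain ⟨u, hu, hχu⟩ := h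
    have hne : χ (((u : (ZMod m)ˣ) : ZMod m)⁻¹) ≠ 1 := by
      intro h1
      apply hχu
      have h2 : χ (((u : (ZMod m)ˣ) : ZMod m)⁻¹) * χ ((u : (ZMod m)ˣ) : ZMod m) = 1 := by
        rw [← map_mul, ZMod.inv_coe_unit, ← Units.val_mul, inv_mul_cancel, Units.val_one, map_one]
      rw [h1, one_mul] at h2
      exact h2
    refine eq_zero_of_mul_eq_self_left hne ?_
    rw [Finset.mul_sum]
    have hbij := Fintype.sum_bijective (fun b : A => (⟨u, hu⟩ : A) * b)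
      (Group.mulLeft_bijective (⟨u, hu⟩ : A))
      (fun b : A => χ (((u : (ZMod m)ˣ) : ZMod m)⁻¹) * χ (((b : (ZMod m)ˣ) : ZMod m)⁻¹))
      (fun b : A => χ (((b : (ZMod m)ˣ) : ZMod m)⁻¹))
      (fun b => by
        show χ (((u : (ZMod m)ˣ) : ZMod m)⁻¹) * χ (((b : (ZMod m)ˣ) : ZMod m)⁻¹) =
          χ ((((u * (b : (ZMod m)ˣ) : (ZMod m)ˣ)) : ZMod m)⁻¹)
        rw [ZMod.inv_coe_unit, ZMod.inv_coe_unit, ZMod.inv_coe_unit, ← map_mul, ← Units.val_mul,
          mul_inv])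
    exact hbij
  · rw [Finset.sum_congr rfl (fun b _ => apply_inv_eq_one_of_not_isNT A h b.2)]
    simp

variable {c : Nat.Primes → ℝ} (hc : ∀ p, 0 ≤ c p) {s : ℝ}

include hc

/-- The classes of `A` are disjoint. -/
lemma sum_clSum_le (hw : Summable (wt c s)) :
    ∑ b : A, clSum c ((b : (ZMod m)ˣ) : ZMod m) s ≤ ∑' p, wt c s p := by
  have h1 : ∑ b : A, clSum c ((b : (ZMod m)ˣ) : ZMod m) s =
      ∑' p : Nat.Primes, ∑ b : A,
        (if ((p : ℕ) : ZMod m) = ((b : (ZMod m)ˣ) : ZMod m) then wt c s p else 0) := by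
    simp only [clSum]
    exact (Summable.tsum_finsetSum fun b _ => summable_class hc hw _).symm
  rw [h1]
  have hsum : Summable (fun p : Nat.Primes => ∑ b : A,
      (if ((p : ℕ) : ZMod m) = ((b : (ZMod m)ˣ) : ZMod m) then wt c s p else 0)) :=
    summable_sum fun b _ => summable_class hc hw _
  refine hsum.tsum_le_tsum (fun p => ?_) hw
  by_cases hex : ∃ b₀ : A, ((p : ℕ) : ZMod m) = ((b₀ : (ZMod m)ˣ) : ZMod m)
  · obtain ⟨b₀, hb₀⟩ := hex
    have : ∀ b : A, (if ((p : ℕ) : ZMod m) = ((b : (ZMod m)ˣ) : ZMod m) then wt c s p else 0) =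
        if b = b₀ then wt c s p else 0 := by
      intro b
      by_cases hb : b = b₀
      · rw [if_pos hb, if_pos (hb ▸ hb₀)]
      · rw [if_neg hb, if_neg]
        intro hpb
        apply hb
        apply Subtype.ext
        apply Units.ext
        rw [← hpb, hb₀]
    rw [Finset.sum_congr rfl (fun b _ => this b), Finset.sum_ite_eq' Finset.univ b₀]
    simp
  · have : ∀ b : A, (if ((p : ℕ) : ZMod m) = ((b : (ZMod m)ˣ) : ZMod m) then wt c s p else 0) = 0 :=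
      fun b => if_neg (fun h => hex ⟨b, h⟩)
    rw [Finset.sum_congr rfl (fun b _ => this b), Finset.sum_const_zero]
    exact wt_nonneg hc p

/-- `|A| ∑_{χ nontrivial on A} T_χ = φ(m) (|A| D_1 - ∑_{b ∈ A} D_b)`. -/
lemma key_identity (hw : Summable (wt c s)) :
    (Fintype.card A : ℂ) * ∑ χ : DirichletCharacter ℂ m,
        (if IsNT A χ then twSum c χ s else 0) =
      (m.totient : ℂ) * ((((Fintype.card A : ℝ) * clSum c (1 : ZMod m) s -
        ∑ b : A, clSum c ((b : (ZMod m)ˣ) : ZMod m) s : ℝ)) : ℂ) := by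
  have h1 := sum_twSum hc hw (m := m)
  have h2 : ∑ b : A, ∑ χ : DirichletCharacter ℂ m,
      χ (((b : (ZMod m)ˣ) : ZMod m)⁻¹) * twSum c χ s =
      ∑ b : A, (m.totient : ℂ) * ((clSum c ((b : (ZMod m)ˣ) : ZMod m) s : ℝ) : ℂ) :=
    Finset.sum_congr rfl fun b _ => sum_inv_mul_twSum hc hw (b : (ZMod m)ˣ)
  rw [Finset.sum_comm] at h2
  have h3 : ∀ χ : DirichletCharacter ℂ m,
      ∑ b : A, χ (((b : (ZMod m)ˣ) : ZMod m)⁻¹) * twSum c χ s =
        (if IsNT A χ then 0 else (Fintype.card A : ℂ)) * twSum c χ s := by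
    intro χ
    rw [← Finset.sum_mul, sum_inv_subgroup]
  rw [Finset.sum_congr rfl (fun χ _ => h3 χ)] at h2
  have h4 : (Fintype.card A : ℂ) * ∑ χ : DirichletCharacter ℂ m,
      (if IsNT A χ then twSum c χ s else 0) =
      (Fintype.card A : ℂ) * ∑ χ : DirichletCharacter ℂ m, twSum c χ s -
        ∑ χ : DirichletCharacter ℂ m,
          (if IsNT A χ then 0 else (Fintype.card A : ℂ)) * twSum c χ s := by
    rw [Finset.mul_sum, Finset.mul_sum, ← Finset.sum_sub_distrib]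
    refine Finset.sum_congr rfl fun χ _ => ?_
    split_ifs <;> ring
  rw [h4, h1, h2]
  push_cast
  rw [← Finset.mul_sum]
  ring

/-- `∑_{χ nontrivial on A} (χ(a⁻¹) - 1) T_χ = φ(m) (D_a - D_1)` for `a ∈ A`. -/
lemma diff_identity (hw : Summable (wt c s)) {a : (ZMod m)ˣ} (ha : a ∈ A) :
    ∑ χ : DirichletCharacter ℂ m,
        (if IsNT A χ then (χ ((a : ZMod m)⁻¹) - 1) * twSum c χ s else 0) =
      (m.totient : ℂ) * (((clSum c (a : ZMod m) s - clSum c (1 : ZMod m) s : ℝ)) : ℂ) := by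
  have h1 := sum_twSum hc hw (m := m)
  have h2 := sum_inv_mul_twSum hc hw a
  have h3 : ∑ χ : DirichletCharacter ℂ m,
      (if IsNT A χ then (χ ((a : ZMod m)⁻¹) - 1) * twSum c χ s else 0) =
      ∑ χ : DirichletCharacter ℂ m, χ ((a : ZMod m)⁻¹) * twSum c χ s -
        ∑ χ : DirichletCharacter ℂ m, twSum c χ s := by
    rw [← Finset.sum_sub_distrib]
    refine Finset.sum_congr rfl fun χ _ => ?_
    split_ifs with h
    · ring
    · rw [apply_inv_eq_one_of_not_isNT A h ha]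
      ring
  rw [h3, h1, h2]
  push_cast
  ring

end subgroup


/-! ### The abstract Dirichlet lemma -/

section main

lemma tendsto_log_inv_sub_one :
    Tendsto (fun s : ℝ => Real.log (1 / (s - 1))) (𝓝[>] (1 : ℝ)) atTop := by
  have h1 : Tendsto (fun s : ℝ => s - 1) (𝓝[>] (1 : ℝ)) (𝓝[>] (0 : ℝ)) := by
    refine tendsto_nhdsWithin_of_tendsto_nhds_of_eventually_within _ ?_ ?_
    · have : Tendsto (fun s : ℝ => s - 1) (𝓝 (1 : ℝ)) (𝓝 (1 - 1)) :=
        (continuous_id.sub continuous_const).tendsto 1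
      rw [sub_self] at this
      exact this.mono_left nhdsWithin_le_nhds
    · filter_upwards [self_mem_nhdsWithin] with s hs
      exact Set.mem_Ioi.mpr (sub_pos.mpr (Set.mem_Ioi.mp hs))
  have h2 := tendsto_inv_nhdsGT_zero.comp h1
  have h3 := Real.tendsto_log_atTop.comp h2
  refine h3.congr fun s => ?_
  simp [one_div]

lemma summable_finsetTerm (c : Nat.Primes → ℝ) (S : Finset ℕ) :
    Summable (fun p : Nat.Primes => if (p : ℕ) ∈ S then c p else 0) := by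
  apply summable_of_hasFiniteSupport
  have hfin : {p : Nat.Primes | (p : ℕ) ∈ S}.Finite :=
    Set.Finite.of_injOn (f := fun p : Nat.Primes => (p : ℕ)) (t := (S : Set ℕ))
      (fun p hp => hp) (fun p _ q _ h => Subtype.ext h) S.finite_toSet
  refine hfin.subset fun p hp => ?_
  by_contra hpS
  have hpS' : (p : ℕ) ∉ S := hpS
  exact hp (by simp only; rw [if_neg hpS'])

/-- **Piece Q-ABS**: the quantitative abstract Dirichlet lemma
(`SpecQ.AbstractDirichletQStatement`, unfolded). -/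
theorem absDirichletQ (m : ℕ) [NeZero m] (c : Nat.Primes → ℝ) (hc : ∀ p, 0 ≤ c p)
    (hsum : ∀ s : ℝ, 1 < s → s ≤ 2 → Summable (fun p : Nat.Primes => c p * (p : ℝ) ^ (-s)))
    (A : Subgroup (ZMod m)ˣ)
    (hSUPP : ∃ B : Finset ℕ, ∀ p : Nat.Primes, (p : ℕ) ∉ B → c p ≠ 0 →
      ∃ u ∈ A, ((u : (ZMod m)ˣ) : ZMod m) = ((p : ℕ) : ZMod m))
    (hZ : ∃ C : ℝ, ∀ s : ℝ, 1 < s → s ≤ 2 →
      |(∑' p : Nat.Primes, c p * (p : ℝ) ^ (-s)) - Real.log (1 / (s - 1))| ≤ C)
    (hLow : ∃ C : ℝ, ∀ s : ℝ, 1 < s → s ≤ 2 →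
      (Nat.card A : ℝ)⁻¹ * Real.log (1 / (s - 1)) - C ≤
        ∑' p : Nat.Primes, if ((p : ℕ) : ZMod m) = 1 then c p * (p : ℝ) ^ (-s) else 0)
    (hL : ∀ χ : DirichletCharacter ℂ m, (∃ u ∈ A, χ ((u : (ZMod m)ˣ) : ZMod m) ≠ 1) →
      ∃ (Λ : ℝ → ℂ) (ℓ : ℂ) (C : ℝ), ContinuousOn Λ (Set.Ioi 1) ∧
        Tendsto (fun s => Complex.exp (Λ s)) (𝓝[>] 1) (𝓝 ℓ) ∧
        ∀ s : ℝ, 1 < s → s ≤ 2 →
          ‖Λ s - ∑' p : Nat.Primes, χ ((p : ℕ) : ZMod m) *
            ((c p * (p : ℝ) ^ (-s) : ℝ) : ℂ)‖ ≤ C)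
    (a : (ZMod m)ˣ) (ha : a ∈ A) :
    ∃ C : ℝ, ∀ s : ℝ, 1 < s → s ≤ 2 →
      (Nat.card A : ℝ)⁻¹ * Real.log (1 / (s - 1)) - C ≤
        ∑' p : Nat.Primes, if ((p : ℕ) : ZMod m) = ((a : (ZMod m)ˣ) : ZMod m)
          then c p * (p : ℝ) ^ (-s) else 0 := by
  classical
  let _ : Fintype A := Fintype.ofFinite A
  obtain ⟨CZ, hCZ⟩ := hZ
  obtain ⟨CL, hCL⟩ := hLow
  have hw : ∀ s : ℝ, 1 < s → s ≤ 2 → Summable (wt c s) := hsum
  -- data for the characters
  have hL' : ∀ χ : DirichletCharacter ℂ m, ∃ (Λ : ℝ → ℂ) (ℓ : ℂ) (C : ℝ), IsNT A χ →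
      (ContinuousOn Λ (Set.Ioi 1) ∧ Tendsto (fun s => Complex.exp (Λ s)) (𝓝[>] 1) (𝓝 ℓ) ∧
        ∀ s : ℝ, 1 < s → s ≤ 2 → ‖Λ s - twSum c χ s‖ ≤ C) := by
    intro χ
    by_cases h : IsNT A χ
    · obtain ⟨Λ, ℓ, C, h1, h2, h3⟩ := hL χ h
      exact ⟨Λ, ℓ, C, fun _ => ⟨h1, h2, h3⟩⟩
    · exact ⟨0, 0, 0, fun h' => absurd h' h⟩
  choose Λ ℓ C hΛ using hL'
  set nA : ℝ := (Fintype.card A : ℝ) with hnAdef
  have hnA : 0 < nA := by
    have : 0 < Fintype.card A := Fintype.card_pos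
    rw [hnAdef]
    exact_mod_cast this
  set φ : ℝ := (m.totient : ℝ) with hφdef
  have hφ : 0 < φ := by
    have : 0 < m.totient := Nat.totient_pos.mpr (NeZero.pos m)
    rw [hφdef]
    exact_mod_cast this
  have hcardeq : (Nat.card A : ℝ) = nA := by rw [Nat.card_eq_fintype_card]
  -- Step B
  have hB : ∀ s : ℝ, 1 < s → s ≤ 2 → -(φ * (nA * CL + CZ)) / nA ≤
      ∑ χ : DirichletCharacter ℂ m, (if IsNT A χ then (twSum c χ s).re else 0) := by
    intro s hs1 hs2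
    have hk := key_identity A hc (hw s hs1 hs2)
    have hre := congrArg Complex.re hk
    have h1 : ((Fintype.card A : ℂ) * ∑ χ : DirichletCharacter ℂ m,
        (if IsNT A χ then twSum c χ s else 0)).re =
        nA * ∑ χ : DirichletCharacter ℂ m, (if IsNT A χ then (twSum c χ s).re else 0) := by
      have : ((Fintype.card A : ℂ)) = ((nA : ℝ) : ℂ) := by rw [hnAdef]; push_cast; rfl
      rw [this, Complex.re_ofReal_mul, Complex.re_sum]
      congr 1
      refine Finset.sum_congr rfl fun χ _ => ?_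
      split_ifs <;> simp
    have h2 : ((m.totient : ℂ) * ((((Fintype.card A : ℝ) * clSum c (1 : ZMod m) s -
        ∑ b : A, clSum c ((b : (ZMod m)ˣ) : ZMod m) s : ℝ)) : ℂ)).re =
        φ * (nA * clSum c (1 : ZMod m) s - ∑ b : A, clSum c ((b : (ZMod m)ˣ) : ZMod m) s) := by
      have : ((m.totient : ℂ)) = ((φ : ℝ) : ℂ) := by rw [hφdef]; push_cast; rfl
      rw [this, Complex.re_ofReal_mul, Complex.ofReal_re]
    rw [h1, h2] at hre
    have h3 := hCL s hs1 hs2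
    rw [hcardeq] at h3
    have h3' : nA⁻¹ * Real.log (1 / (s - 1)) - CL ≤ clSum c (1 : ZMod m) s := h3
    have h4 := sum_clSum_le A hc (hw s hs1 hs2)
    have h5 := (abs_le.mp (hCZ s hs1 hs2)).2
    have h5' : (∑' p, wt c s p) ≤ Real.log (1 / (s - 1)) + CZ := by
      have : (∑' p : Nat.Primes, c p * ((p : ℕ) : ℝ) ^ (-s)) = ∑' p, wt c s p := rfl
      linarith
    have h6 : -(nA * CL + CZ) ≤
        nA * clSum c (1 : ZMod m) s - ∑ b : A, clSum c ((b : (ZMod m)ˣ) : ZMod m) s := by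
      have h7 : nA * (nA⁻¹ * Real.log (1 / (s - 1)) - CL) ≤ nA * clSum c (1 : ZMod m) s :=
        mul_le_mul_of_nonneg_left h3' hnA.le
      have h8 : nA * (nA⁻¹ * Real.log (1 / (s - 1)) - CL) =
          Real.log (1 / (s - 1)) - nA * CL := by
        field_simp
      linarith
    have h9 : φ * (-(nA * CL + CZ)) ≤ nA * ∑ χ : DirichletCharacter ℂ m,
        (if IsNT A χ then (twSum c χ s).re else 0) := by
      rw [hre]
      exact mul_le_mul_of_nonneg_left h6 hφ.le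
    rw [div_le_iff₀ hnA]
    linarith
  -- Step C: non-vanishing of the limits
  set C₃ : ℝ := φ * (nA * CL + CZ) / nA +
    ∑ χ : DirichletCharacter ℂ m, (if IsNT A χ then C χ else 0) with hC₃
  have hreΛ : ∀ s : ℝ, 1 < s → s ≤ 2 → -C₃ ≤
      ∑ χ : DirichletCharacter ℂ m, (if IsNT A χ then (Λ χ s).re else 0) := by
    intro s hs1 hs2
    have h1 := hB s hs1 hs2
    have h2 : ∑ χ : DirichletCharacter ℂ m, (if IsNT A χ then (twSum c χ s).re else 0) ≤
        ∑ χ : DirichletCharacter ℂ m, ((if IsNT A χ then (Λ χ s).re else 0) +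
          (if IsNT A χ then C χ else 0)) := by
      refine Finset.sum_le_sum fun χ _ => ?_
      split_ifs with h
      · have h3 := (hΛ χ h).2.2 s hs1 hs2
        have h4 : (twSum c χ s - Λ χ s).re ≤ ‖twSum c χ s - Λ χ s‖ := Complex.re_le_norm _
        rw [norm_sub_rev] at h4
        rw [Complex.sub_re] at h4
        linarith
      · simp
    rw [Finset.sum_add_distrib] at h2
    have h5 : -(φ * (nA * CL + CZ)) / nA = -(φ * (nA * CL + CZ) / nA) := by ring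
    rw [hC₃]
    linarith
  have hprod_lower : ∀ s : ℝ, 1 < s → s ≤ 2 → Real.exp (-C₃) ≤
      ∏ χ : DirichletCharacter ℂ m, (if IsNT A χ then ‖Complex.exp (Λ χ s)‖ else 1) := by
    intro s hs1 hs2
    have h1 : ∏ χ : DirichletCharacter ℂ m, (if IsNT A χ then ‖Complex.exp (Λ χ s)‖ else 1) =
        Real.exp (∑ χ : DirichletCharacter ℂ m, (if IsNT A χ then (Λ χ s).re else 0)) := by
      rw [Real.exp_sum]
      refine Finset.prod_congr rfl fun χ _ => ?_
      split_ifs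
      · rw [Complex.norm_exp]
      · rw [Real.exp_zero]
    rw [h1]
    exact Real.exp_le_exp.mpr (hreΛ s hs1 hs2)
  have hprod_tendsto : Tendsto (fun s : ℝ => ∏ χ : DirichletCharacter ℂ m,
      (if IsNT A χ then ‖Complex.exp (Λ χ s)‖ else 1)) (𝓝[>] 1)
      (𝓝 (∏ χ : DirichletCharacter ℂ m, (if IsNT A χ then ‖ℓ χ‖ else 1))) := by
    refine tendsto_finsetProd _ fun χ _ => ?_
    by_cases h : IsNT A χ
    · simp only [if_pos h]
      exact (hΛ χ h).2.1.norm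
    · simp only [if_neg h]
      exact tendsto_const_nhds
  have hprod_pos : Real.exp (-C₃) ≤
      ∏ χ : DirichletCharacter ℂ m, (if IsNT A χ then ‖ℓ χ‖ else 1) := by
    refine ge_of_tendsto hprod_tendsto ?_
    filter_upwards [Ioc_mem_nhdsGT (show (1 : ℝ) < 2 by norm_num)] with s hs
    exact hprod_lower s hs.1 hs.2
  have hℓ : ∀ χ : DirichletCharacter ℂ m, IsNT A χ → ℓ χ ≠ 0 := by
    intro χ h h0
    have : ∏ χ : DirichletCharacter ℂ m, (if IsNT A χ then ‖ℓ χ‖ else 1) = 0 := by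
      refine Finset.prod_eq_zero (Finset.mem_univ χ) ?_
      rw [if_pos h, h0, norm_zero]
    rw [this] at hprod_pos
    exact absurd hprod_pos (not_le.mpr (Real.exp_pos _))
  -- Step D: boundedness of the logarithms
  have hD : ∀ χ : DirichletCharacter ℂ m, ∃ B : ℝ, IsNT A χ →
      ∀ᶠ s in 𝓝[>] (1 : ℝ), ‖Λ χ s‖ ≤ B := by
    intro χ
    by_cases h : IsNT A χ
    · obtain ⟨B, hB'⟩ := H221.exists_bound_of_exp_tendsto (hΛ χ h).1 (hℓ χ h) (hΛ χ h).2.1
      exact ⟨B, fun _ => hB'⟩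
    · exact ⟨0, fun h' => absurd h' h⟩
  choose Bd hBd using hD
  -- Step E
  set E : ℝ := ∑ χ : DirichletCharacter ℂ m, (if IsNT A χ then 2 * (Bd χ + C χ) else 0) with hE
  have hall : ∀ᶠ s in 𝓝[>] (1 : ℝ), ∀ χ : DirichletCharacter ℂ m, IsNT A χ → ‖Λ χ s‖ ≤ Bd χ := by
    rw [Filter.eventually_all]
    intro χ
    by_cases h : IsNT A χ
    · filter_upwards [hBd χ h] with s hs _ using hs
    · exact Filter.Eventually.of_forall fun s h' => absurd h' h
  -- the estimate near `s = 1`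
  have hev : ∀ᶠ s in 𝓝[>] (1 : ℝ),
      nA⁻¹ * Real.log (1 / (s - 1)) - CL - E / φ ≤ clSum c (a : ZMod m) s := by
    filter_upwards [hall, Ioc_mem_nhdsGT (show (1 : ℝ) < 2 by norm_num)] with s hs hs12
    have hs1 := hs12.1
    have hs2 := hs12.2
    have hd := diff_identity A hc (hw s hs1 hs2) ha
    have hnorm := congrArg norm hd
    have h1 : ‖(m.totient : ℂ) * (((clSum c (a : ZMod m) s - clSum c (1 : ZMod m) s : ℝ)) : ℂ)‖ =
        φ * |clSum c (a : ZMod m) s - clSum c (1 : ZMod m) s| := by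
      rw [norm_mul, Complex.norm_natCast, Complex.norm_real, Real.norm_eq_abs]
    rw [h1] at hnorm
    have h2 : ‖∑ χ : DirichletCharacter ℂ m,
        (if IsNT A χ then (χ ((a : ZMod m)⁻¹) - 1) * twSum c χ s else 0)‖ ≤ E := by
      refine (norm_sum_le _ _).trans (Finset.sum_le_sum fun χ _ => ?_)
      split_ifs with h
      · rw [norm_mul]
        have h3 : ‖χ ((a : ZMod m)⁻¹) - 1‖ ≤ 2 := by
          calc ‖χ ((a : ZMod m)⁻¹) - 1‖ ≤ ‖χ ((a : ZMod m)⁻¹)‖ + ‖(1 : ℂ)‖ := norm_sub_le _ _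
            _ ≤ 1 + 1 := by
                rw [norm_one]
                exact add_le_add (DirichletCharacter.norm_le_one χ _) le_rfl
            _ = 2 := by norm_num
        have h4 : ‖twSum c χ s‖ ≤ Bd χ + C χ := by
          have h5 := (hΛ χ h).2.2 s hs1 hs2
          have h6 := hs χ h
          calc ‖twSum c χ s‖ = ‖Λ χ s - (Λ χ s - twSum c χ s)‖ := by rw [sub_sub_cancel]
            _ ≤ ‖Λ χ s‖ + ‖Λ χ s - twSum c χ s‖ := norm_sub_le _ _
            _ ≤ Bd χ + C χ := add_le_add h6 h5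
        exact mul_le_mul h3 h4 (norm_nonneg _) (by norm_num)
      · rw [norm_zero]
    rw [hnorm] at h2
    have h3 : |clSum c (a : ZMod m) s - clSum c (1 : ZMod m) s| ≤ E / φ := by
      rw [le_div_iff₀ hφ]
      linarith
    have h4 := (abs_le.mp h3).1
    have h6 := hCL s hs1 hs2
    rw [hcardeq] at h6
    have h6' : nA⁻¹ * Real.log (1 / (s - 1)) - CL ≤ clSum c (1 : ZMod m) s := h6
    linarith
  obtain ⟨u, hu, hsub⟩ := mem_nhdsGT_iff_exists_Ioo_subset.mp hev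
  have hu1 : (1 : ℝ) < u := hu
  refine ⟨|CL| + |E / φ| + nA⁻¹ * |Real.log (1 / (u - 1))|, fun s hs1 hs2 => ?_⟩
  rw [hcardeq]
  show _ ≤ clSum c (a : ZMod m) s
  have hnn : 0 ≤ nA⁻¹ * |Real.log (1 / (u - 1))| :=
    mul_nonneg (inv_nonneg.mpr hnA.le) (abs_nonneg _)
  by_cases hsu : s < u
  · have h1 : nA⁻¹ * Real.log (1 / (s - 1)) - CL - E / φ ≤ clSum c (a : ZMod m) s :=
      hsub ⟨hs1, hsu⟩
    have h2 := le_abs_self CL
    have h3 := le_abs_self (E / φ)
    linarith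
  · have hus : u ≤ s := not_lt.mp hsu
    have h1 : Real.log (1 / (s - 1)) ≤ Real.log (1 / (u - 1)) := by
      apply Real.log_le_log (by have : 0 < s - 1 := by linarith
                                positivity)
      exact one_div_le_one_div_of_le (by linarith) (by linarith)
    have h2 : nA⁻¹ * Real.log (1 / (s - 1)) ≤ nA⁻¹ * |Real.log (1 / (u - 1))| :=
      mul_le_mul_of_nonneg_left (h1.trans (le_abs_self _)) (inv_nonneg.mpr hnA.le)
    have h3 := clSum_nonneg (m := m) hc (a : ZMod m) (s := s)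
    have h4 := abs_nonneg CL
    have h5 := abs_nonneg (E / φ)
    linarith

/-- **Piece ABS**: the abstract Dirichlet lemma (`H221.AbstractDirichletStatement`, unfolded). -/
theorem absDirichlet (m : ℕ) [NeZero m] (c : Nat.Primes → ℝ) (hc : ∀ p, 0 ≤ c p)
    (hsum : ∀ s : ℝ, 1 < s → s ≤ 2 → Summable (fun p : Nat.Primes => c p * (p : ℝ) ^ (-s)))
    (A : Subgroup (ZMod m)ˣ)
    (hSUPP : ∃ B : Finset ℕ, ∀ p : Nat.Primes, (p : ℕ) ∉ B → c p ≠ 0 →
      ∃ u ∈ A, ((u : (ZMod m)ˣ) : ZMod m) = ((p : ℕ) : ZMod m))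
    (hZ : ∃ C : ℝ, ∀ s : ℝ, 1 < s → s ≤ 2 →
      |(∑' p : Nat.Primes, c p * (p : ℝ) ^ (-s)) - Real.log (1 / (s - 1))| ≤ C)
    (hLow : ∃ C : ℝ, ∀ s : ℝ, 1 < s → s ≤ 2 →
      (Nat.card A : ℝ)⁻¹ * Real.log (1 / (s - 1)) - C ≤
        ∑' p : Nat.Primes, if ((p : ℕ) : ZMod m) = 1 then c p * (p : ℝ) ^ (-s) else 0)
    (hL : ∀ χ : DirichletCharacter ℂ m, (∃ u ∈ A, χ ((u : (ZMod m)ˣ) : ZMod m) ≠ 1) →
      ∃ (Λ : ℝ → ℂ) (ℓ : ℂ) (C : ℝ), ContinuousOn Λ (Set.Ioi 1) ∧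
        Tendsto (fun s => Complex.exp (Λ s)) (𝓝[>] 1) (𝓝 ℓ) ∧
        ∀ s : ℝ, 1 < s → s ≤ 2 →
          ‖Λ s - ∑' p : Nat.Primes, χ ((p : ℕ) : ZMod m) *
            ((c p * (p : ℝ) ^ (-s) : ℝ) : ℂ)‖ ≤ C)
    (a : (ZMod m)ˣ) (ha : a ∈ A) (S : Finset ℕ) :
    ∃ p : Nat.Primes, (p : ℕ) ∉ S ∧
      ((p : ℕ) : ZMod m) = ((a : (ZMod m)ˣ) : ZMod m) ∧ c p ≠ 0 := by
  classical
  by_contra hcon
  push Not at hcon
  obtain ⟨CQ, hCQ⟩ := absDirichletQ m c hc hsum A hSUPP hZ hLow hL a ha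
  have hw : ∀ s : ℝ, 1 < s → s ≤ 2 → Summable (wt c s) := hsum
  have hnA : (0 : ℝ) < (Nat.card A : ℝ) := by
    have : 0 < Nat.card A := Nat.card_pos
    exact_mod_cast this
  set KS : ℝ := ∑' p : Nat.Primes, (if (p : ℕ) ∈ S then c p else 0) with hKS
  have hDa : ∀ s : ℝ, 1 < s → s ≤ 2 → clSum c (a : ZMod m) s ≤ KS := by
    intro s hs1 hs2
    refine (summable_class hc (hw s hs1 hs2) _).tsum_le_tsum (fun p => ?_)
      (summable_finsetTerm c S)
    by_cases hpa : ((p : ℕ) : ZMod m) = (a : ZMod m)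
    · rw [if_pos hpa]
      by_cases hpS : (p : ℕ) ∈ S
      · rw [if_pos hpS]
        exact wt_le hc (by linarith) p
      · rw [if_neg hpS]
        have := hcon p hpS hpa
        simp [wt, this]
    · rw [if_neg hpa]
      split_ifs
      · exact hc p
      · exact le_rfl
  have hev : ∀ᶠ s in 𝓝[>] (1 : ℝ),
      Real.log (1 / (s - 1)) ≤ (Nat.card A : ℝ) * (KS + CQ) := by
    filter_upwards [Ioc_mem_nhdsGT (show (1 : ℝ) < 2 by norm_num)] with s hs12
    have h1 := hCQ s hs12.1 hs12.2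
    have h2 : (Nat.card A : ℝ)⁻¹ * Real.log (1 / (s - 1)) - CQ ≤ clSum c (a : ZMod m) s := h1
    have h3 := hDa s hs12.1 hs12.2
    have h7 : (Nat.card A : ℝ)⁻¹ * Real.log (1 / (s - 1)) ≤ KS + CQ := by linarith
    have h8 := mul_le_mul_of_nonneg_left h7 hnA.le
    rw [← mul_assoc, mul_inv_cancel₀ hnA.ne', one_mul] at h8
    exact h8
  have hinf := tendsto_log_inv_sub_one.eventually_gt_atTop ((Nat.card A : ℝ) * (KS + CQ))
  obtain ⟨s, hs1, hs2⟩ := (hev.and hinf).exists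
  exact absurd hs1 (not_le.mpr hs2)

end main

end

end Fermat.Agent.Lib.Cheb.H56
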