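import Fermat.Agent.Lib.Cheb.Spec
import Fermat.Agent.Lib.Cheb.H761.PrimeSum

/-!
# CHEB Tier 2, piece DEG of CYC (helper221's table): twisted prime-ideal sums

For a number field `F` and a Dirichlet character `χ` mod `m`, on `(1, 2]`:
`∑_𝔭 χ(N𝔭) N𝔭^(-s) - ∑_p χ(p) c_F(p) p^(-s) = O(1)`, where `c_F(p) = Spec.primeCount F p`
(the primes of degree `≥ 2` contribute a bounded amount).  Row-lead helper56.
-/

set_option autoImplicit false
set_option linter.unusedSectionVars false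

open NumberField IsDedekindDomain Filter Topology

namespace Fermat.Agent.Lib.Cheb.H56

noncomputable section

variable (F : Type) [Field F] [NumberField F] (m : ℕ) [NeZero m] (χ : DirichletCharacter ℂ m)

/-- the twisted term `χ(N𝔭) N𝔭^(-s)` -/
def twTerm (s : ℝ) (𝔭 : HeightOneSpectrum (𝓞 F)) : ℂ :=
  χ (Ideal.absNorm 𝔭.asIdeal : ZMod m) * (((Ideal.absNorm 𝔭.asIdeal : ℝ) ^ (-s) : ℝ) : ℂ)

lemma norm_twTerm_le (s : ℝ) (𝔭 : HeightOneSpectrum (𝓞 F)) :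
    ‖twTerm F m χ s 𝔭‖ ≤ H761.normPow F s 𝔭.asIdeal := by
  rw [twTerm, norm_mul, Complex.norm_real, Real.norm_eq_abs,
    abs_of_nonneg (Real.rpow_nonneg (Nat.cast_nonneg _) _)]
  calc ‖χ (Ideal.absNorm 𝔭.asIdeal : ZMod m)‖ * (Ideal.absNorm 𝔭.asIdeal : ℝ) ^ (-s)
      ≤ 1 * (Ideal.absNorm 𝔭.asIdeal : ℝ) ^ (-s) := by
        gcongr
        exact DirichletCharacter.norm_le_one χ _
    _ = H761.normPow F s 𝔭.asIdeal := by rw [one_mul, H761.normPow]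

lemma summable_twTerm {s : ℝ} (hs : 1 < s) : Summable (twTerm F m χ s) :=
  Summable.of_norm_bounded (H761.summable_primeSum F hs) (norm_twTerm_le F m χ s)

lemma tsum_fibre_twTerm (s : ℝ) (p : Nat.Primes) :
    ∑' x : {𝔭 : H761.lowPrimes F // H761.lowNorm F 𝔭 = p}, twTerm F m χ s x.1.1 =
      χ ((p : ℕ) : ZMod m) *
        (((Spec.primeCount F p : ℝ) * ((p : ℕ) : ℝ) ^ (-s) : ℝ) : ℂ) := by
  have := H761.finite_fibre F p
  have : Fintype {𝔭 : H761.lowPrimes F // H761.lowNorm F 𝔭 = p} := Fintype.ofFinite _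
  rw [tsum_fintype]
  have h : ∀ x : {𝔭 : H761.lowPrimes F // H761.lowNorm F 𝔭 = p},
      twTerm F m χ s x.1.1 = χ ((p : ℕ) : ZMod m) * ((((p : ℕ) : ℝ) ^ (-s) : ℝ) : ℂ) := by
    intro x
    have := congrArg Subtype.val x.2
    simp only [H761.lowNorm] at this
    simp only [twTerm, this]
  simp only [h, Finset.sum_const, Finset.card_univ, nsmul_eq_mul, ← H761.card_fibre F p,
    Nat.card_eq_fintype_card]
  push_cast
  ring

lemma summable_primeCount {s : ℝ} (hs : 1 < s) :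
    Summable (fun p : Nat.Primes => (Spec.primeCount F p : ℝ) * ((p : ℕ) : ℝ) ^ (-s)) := by
  have hsum : Summable (fun 𝔭 : H761.lowPrimes F => H761.normPow F s 𝔭.1.asIdeal) :=
    (H761.summable_primeSum F hs).subtype _
  have hsum' : Summable (fun y : Σ p : Nat.Primes,
      {𝔭 : H761.lowPrimes F // H761.lowNorm F 𝔭 = p} => H761.normPow F s y.2.1.1.asIdeal) :=
    ((Equiv.sigmaFiberEquiv (H761.lowNorm F)).summable_iff
      (f := fun 𝔭 : H761.lowPrimes F => H761.normPow F s 𝔭.1.asIdeal)).mpr hsum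
  have := hsum'.sigma
  refine this.congr fun p => ?_
  exact H761.tsum_fibre F s p

lemma tsum_lowPrimes_twTerm {s : ℝ} (hs : 1 < s) :
    ∑' 𝔭 : H761.lowPrimes F, twTerm F m χ s 𝔭.1 =
      ∑' p : Nat.Primes, χ ((p : ℕ) : ZMod m) *
        (((Spec.primeCount F p : ℝ) * ((p : ℕ) : ℝ) ^ (-s) : ℝ) : ℂ) := by
  have hsum : Summable (fun 𝔭 : H761.lowPrimes F => twTerm F m χ s 𝔭.1) :=
    (summable_twTerm F m χ hs).subtype _
  have hsum' : Summable (fun y : Σ p : Nat.Primes,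
      {𝔭 : H761.lowPrimes F // H761.lowNorm F 𝔭 = p} => twTerm F m χ s y.2.1.1) :=
    ((Equiv.sigmaFiberEquiv (H761.lowNorm F)).summable_iff
      (f := fun 𝔭 : H761.lowPrimes F => twTerm F m χ s 𝔭.1)).mpr hsum
  calc ∑' 𝔭 : H761.lowPrimes F, twTerm F m χ s 𝔭.1
      = ∑' y : Σ p : Nat.Primes, {𝔭 : H761.lowPrimes F // H761.lowNorm F 𝔭 = p},
          twTerm F m χ s y.2.1.1 :=
        ((Equiv.sigmaFiberEquiv (H761.lowNorm F)).tsum_eq
          (fun 𝔭 : H761.lowPrimes F => twTerm F m χ s 𝔭.1)).symm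
    _ = ∑' p : Nat.Primes, ∑' x : {𝔭 : H761.lowPrimes F // H761.lowNorm F 𝔭 = p},
          twTerm F m χ s x.1.1 := hsum'.tsum_sigma
    _ = _ := tsum_congr fun p => tsum_fibre_twTerm F m χ s p

lemma norm_tsum_highPrimes_twTerm_le {s : ℝ} (hs : 1 < s) :
    ‖∑' 𝔭 : H761.highPrimes F, twTerm F m χ s 𝔭.1‖ ≤ H761.highBound F := by
  have hsumR : Summable (fun 𝔭 : H761.highPrimes F => H761.normPow F s 𝔭.1.asIdeal) :=
    (H761.summable_primeSum F hs).subtype _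
  have hbound : ∀ 𝔭 : H761.highPrimes F,
      ‖twTerm F m χ s 𝔭.1‖ ≤ H761.normPow F s 𝔭.1.asIdeal :=
    fun 𝔭 => norm_twTerm_le F m χ s 𝔭.1
  calc ‖∑' 𝔭 : H761.highPrimes F, twTerm F m χ s 𝔭.1‖
      ≤ ∑' 𝔭 : H761.highPrimes F, H761.normPow F s 𝔭.1.asIdeal :=
        tsum_of_norm_bounded hsumR.hasSum hbound
    _ ≤ H761.highBound F := H761.tsum_highPrimes_le F hs

/-- **Piece DEG**: twisted prime-ideal sums versus twisted sums over rational primes. -/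
theorem twistedPrimeSum :
    ∃ C : ℝ, ∀ s : ℝ, 1 < s → s ≤ 2 →
      Summable (fun p : Nat.Primes => (Spec.primeCount F p : ℝ) * (p : ℝ) ^ (-s)) ∧
      ‖(∑' 𝔭 : HeightOneSpectrum (𝓞 F), χ (Ideal.absNorm 𝔭.asIdeal : ZMod m) *
          (((Ideal.absNorm 𝔭.asIdeal : ℝ) ^ (-s) : ℝ) : ℂ)) -
        ∑' p : Nat.Primes, χ ((p : ℕ) : ZMod m) *
          (((Spec.primeCount F p : ℝ) * (p : ℝ) ^ (-s) : ℝ) : ℂ)‖ ≤ C := by
  refine ⟨H761.highBound F, fun s hs1 _ => ⟨summable_primeCount F hs1, ?_⟩⟩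
  have hsum := summable_twTerm F m χ hs1
  have hsplit : (∑' 𝔭 : HeightOneSpectrum (𝓞 F), twTerm F m χ s 𝔭) =
      (∑' 𝔭 : H761.lowPrimes F, twTerm F m χ s 𝔭.1) +
        ∑' 𝔭 : H761.highPrimes F, twTerm F m χ s 𝔭.1 := by
    have hc : H761.highPrimes F = (H761.lowPrimes F)ᶜ := rfl
    rw [hc]
    exact ((hsum.subtype _).tsum_add_tsum_compl (hsum.subtype _)).symm
  have h1 : (∑' 𝔭 : HeightOneSpectrum (𝓞 F), χ (Ideal.absNorm 𝔭.asIdeal : ZMod m) *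
      (((Ideal.absNorm 𝔭.asIdeal : ℝ) ^ (-s) : ℝ) : ℂ)) =
      ∑' 𝔭 : HeightOneSpectrum (𝓞 F), twTerm F m χ s 𝔭 := rfl
  rw [h1, hsplit, tsum_lowPrimes_twTerm F m χ hs1, add_sub_cancel_left]
  exact norm_tsum_highPrimes_twTerm_le F m χ hs1

end

end Fermat.Agent.Lib.Cheb.H56
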