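import Fermat.Agent.Lib.Cheb.Spec
import Fermat.Agent.Lib.Cheb.H761.ZetaEuler
import Fermat.Agent.Lib.Cheb.H221.CycSpec
import Fermat.Agent.Lib.Cheb.H221.LogEuler
import Fermat.Agent.Lib.Cheb.H56.TwistedPrimeSum

/-!
# CHEB Tier 2, piece GLUE of CYC (second copy, row-lead helper56)

`cyc_of_pieces`: the statement of helper221's skeleton, proved from the interface statements of
`H221.CycSpec` (EP, DEG, ABS, ALG) and the `Spec` black boxes.
-/

set_option autoImplicit false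
set_option linter.unusedSectionVars false
set_option linter.unusedVariables false

open NumberField IsDedekindDomain Filter Topology
open Fermat.Agent.Lib.Cheb

namespace Fermat.Agent.Lib.Cheb.H56

noncomputable section

/-! ### The logarithm of the twisted Euler product -/

section logdata

variable (F : Type) [Field F] [NumberField F] (m : ℕ) [NeZero m] (χ : DirichletCharacter ℂ m)

/-- norms of the primes -/
def nrm (𝔭 : HeightOneSpectrum (𝓞 F)) : ℝ := (Ideal.absNorm 𝔭.asIdeal : ℝ)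

/-- the coefficients `χ(N𝔭)` -/
def coef (𝔭 : HeightOneSpectrum (𝓞 F)) : ℂ := χ (Ideal.absNorm 𝔭.asIdeal : ZMod m)

lemma two_le_nrm (𝔭 : HeightOneSpectrum (𝓞 F)) : 2 ≤ nrm F 𝔭 := by
  have := H761.two_le_absNorm F 𝔭
  unfold nrm
  exact_mod_cast this

lemma summable_xs_nrm (s : ℝ) (hs : 1 < s) : Summable (H221.xs (nrm F) s) :=
  H761.summable_primeSum F hs

lemma norm_coef_le (𝔭 : HeightOneSpectrum (𝓞 F)) : ‖coef F m χ 𝔭‖ ≤ 1 :=
  DirichletCharacter.norm_le_one χ _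

/-- the constant bounding `∑ N𝔭^(-2s)` -/
def sqBound : ℝ := ∑' 𝔭 : HeightOneSpectrum (𝓞 F), H221.xs (nrm F) 2 𝔭

lemma xs_sq_le {s : ℝ} (hs : 1 ≤ s) (𝔭 : HeightOneSpectrum (𝓞 F)) :
    H221.xs (nrm F) s 𝔭 ^ 2 ≤ H221.xs (nrm F) 2 𝔭 := by
  have h2 := two_le_nrm F 𝔭
  have hpos : (0 : ℝ) < nrm F 𝔭 := by linarith
  unfold H221.xs
  rw [← Real.rpow_natCast, ← Real.rpow_mul hpos.le]
  exact Real.rpow_le_rpow_of_exponent_le (by linarith) (by push_cast; linarith)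

lemma norm_logEuler_sub_le {s : ℝ} (hs : 1 < s) :
    ‖H221.logEuler (nrm F) (coef F m χ) s -
      ∑' 𝔭 : HeightOneSpectrum (𝓞 F), coef F m χ 𝔭 * (H221.xs (nrm F) s 𝔭 : ℂ)‖ ≤ sqBound F := by
  have hN := two_le_nrm F
  have hsum := summable_xs_nrm F
  have hc := norm_coef_le F m χ
  have hlog := H221.summable_logFactor hN hsum hc hs
  have hz : Summable (fun 𝔭 : HeightOneSpectrum (𝓞 F) =>
      coef F m χ 𝔭 * (H221.xs (nrm F) s 𝔭 : ℂ)) :=
    Summable.of_norm_bounded (hsum s hs) (fun 𝔭 => H221.norm_z_le hN hc s 𝔭)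
  have hdiff : H221.logEuler (nrm F) (coef F m χ) s -
      ∑' 𝔭 : HeightOneSpectrum (𝓞 F), coef F m χ 𝔭 * (H221.xs (nrm F) s 𝔭 : ℂ) =
      ∑' 𝔭 : HeightOneSpectrum (𝓞 F), (H221.logFactor (nrm F) (coef F m χ) s 𝔭 -
        coef F m χ 𝔭 * (H221.xs (nrm F) s 𝔭 : ℂ)) := by
    rw [H221.logEuler, ← hlog.tsum_sub hz]
  rw [hdiff]
  have h2 : Summable (H221.xs (nrm F) 2) := hsum 2 (by norm_num)
  exact tsum_of_norm_bounded h2.hasSum (fun 𝔭 =>
    (H221.norm_logFactor_sub_le hN hc hs.le 𝔭).trans (xs_sq_le F hs.le 𝔭))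

/-- The data `(Λ, ℓ, C)` required by the abstract Dirichlet lemma, for one character. -/
theorem exists_logEuler_data (hEP : H221.EulerProductStatement)
    (hlim : ∃ c : ℂ, Tendsto
      (fun s : ℝ => LSeries (fun n => χ (n : ZMod m) * (Spec.idealCount F n : ℂ)) (s : ℂ))
      (𝓝[>] 1) (𝓝 c)) :
    ∃ (Λ : ℝ → ℂ) (ℓ : ℂ) (C : ℝ), ContinuousOn Λ (Set.Ioi 1) ∧
      Tendsto (fun s => Complex.exp (Λ s)) (𝓝[>] 1) (𝓝 ℓ) ∧
      ∀ s : ℝ, 1 < s → s ≤ 2 →
        ‖Λ s - ∑' p : Nat.Primes, χ ((p : ℕ) : ZMod m) *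
          (((Spec.primeCount F p : ℝ) * (p : ℝ) ^ (-s) : ℝ) : ℂ)‖ ≤ C := by
  have hN := two_le_nrm F
  have hsum := summable_xs_nrm F
  have hc := norm_coef_le F m χ
  obtain ⟨c₀, hc₀⟩ := hlim
  obtain ⟨C₂, hC₂⟩ := twistedPrimeSum F m χ
  refine ⟨H221.logEuler (nrm F) (coef F m χ), c₀, sqBound F + C₂,
    H221.continuousOn_logEuler hN hsum hc, ?_, ?_⟩
  · refine hc₀.congr' ?_
    filter_upwards [self_mem_nhdsWithin] with s hs
    exact (H221.exp_logEuler_eq hN hsum hc hs (hEP F m χ s hs)).symm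
  · intro s hs1 hs2
    have h1 := norm_logEuler_sub_le F m χ hs1
    have h2 := (hC₂ s hs1 hs2).2
    have h3 : (∑' 𝔭 : HeightOneSpectrum (𝓞 F), coef F m χ 𝔭 * (H221.xs (nrm F) s 𝔭 : ℂ)) =
        ∑' 𝔭 : HeightOneSpectrum (𝓞 F), χ (Ideal.absNorm 𝔭.asIdeal : ZMod m) *
          (((Ideal.absNorm 𝔭.asIdeal : ℝ) ^ (-s) : ℝ) : ℂ) := rfl
    rw [h3] at h1
    calc ‖H221.logEuler (nrm F) (coef F m χ) s - ∑' p : Nat.Primes, χ ((p : ℕ) : ZMod m) *
          (((Spec.primeCount F p : ℝ) * (p : ℝ) ^ (-s) : ℝ) : ℂ)‖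
        = ‖(H221.logEuler (nrm F) (coef F m χ) s -
            ∑' 𝔭 : HeightOneSpectrum (𝓞 F), χ (Ideal.absNorm 𝔭.asIdeal : ZMod m) *
              (((Ideal.absNorm 𝔭.asIdeal : ℝ) ^ (-s) : ℝ) : ℂ)) +
          ((∑' 𝔭 : HeightOneSpectrum (𝓞 F), χ (Ideal.absNorm 𝔭.asIdeal : ZMod m) *
              (((Ideal.absNorm 𝔭.asIdeal : ℝ) ^ (-s) : ℝ) : ℂ)) -
            ∑' p : Nat.Primes, χ ((p : ℕ) : ZMod m) *
              (((Spec.primeCount F p : ℝ) * (p : ℝ) ^ (-s) : ℝ) : ℂ))‖ := by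
          congr 1; ring
      _ ≤ sqBound F + C₂ := (norm_add_le _ _).trans (add_le_add h1 h2)

end logdata

/-! ### The lower bound for the primes `≡ 1 mod m` -/

section split

variable (F₀ F : Type) [Field F₀] [NumberField F₀] [Field F] [NumberField F] (m : ℕ)

lemma rpow_neg_le_one (p : Nat.Primes) {s : ℝ} (hs : 0 ≤ s) : ((p : ℕ) : ℝ) ^ (-s) ≤ 1 := by
  have h1 : (1 : ℝ) ≤ ((p : ℕ) : ℝ) := by exact_mod_cast p.2.one_lt.le
  exact Real.rpow_le_one_of_one_le_of_nonpos h1 (by linarith)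

lemma rpow_neg_nonneg (p : Nat.Primes) (s : ℝ) : 0 ≤ ((p : ℕ) : ℝ) ^ (-s) :=
  Real.rpow_nonneg (Nat.cast_nonneg _) _

/-- the correction term at the exceptional primes -/
def excTerm (B : Finset ℕ) (p : Nat.Primes) : ℝ :=
  if (p : ℕ) ∈ B then (Spec.primeCount F₀ p : ℝ) else 0

lemma summable_excTerm (B : Finset ℕ) : Summable (excTerm F₀ B) := by
  apply summable_of_hasFiniteSupport
  have hfin : {p : Nat.Primes | (p : ℕ) ∈ B}.Finite :=
    Set.Finite.of_injOn (f := fun p : Nat.Primes => (p : ℕ)) (t := (B : Set ℕ))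
      (fun p hp => hp) (fun p _ q _ h => Subtype.ext h) B.finite_toSet
  refine hfin.subset fun p hp => ?_
  by_contra hpB
  have hpB' : (p : ℕ) ∉ B := hpB
  exact hp (by simp only [excTerm]; rw [if_neg hpB'])

theorem split_lower (hZ : Spec.PrimeSumStatement) (n : ℕ) (hn : 0 < n) (B : Finset ℕ)
    (hsplit : ∀ p : ℕ, p.Prime → p ∉ B →
      Spec.primeCount F₀ p = if (p : ZMod m) = 1 then n * Spec.primeCount F p else 0) :
    ∃ C : ℝ, ∀ s : ℝ, 1 < s → s ≤ 2 →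
      (n : ℝ)⁻¹ * Real.log (1 / (s - 1)) - C ≤
        ∑' p : Nat.Primes, if ((p : ℕ) : ZMod m) = 1 then
          (Spec.primeCount F p : ℝ) * (p : ℝ) ^ (-s) else 0 := by
  obtain ⟨C₀, hC₀⟩ := hZ F₀
  have hn0 : (0 : ℝ) < n := by exact_mod_cast hn
  refine ⟨(n : ℝ)⁻¹ * (C₀ + ∑' p : Nat.Primes, excTerm F₀ B p), fun s hs1 hs2 => ?_⟩
  set f : Nat.Primes → ℝ := fun p => (Spec.primeCount F₀ p : ℝ) * (p : ℝ) ^ (-s) with hf
  set h₁ : Nat.Primes → ℝ := fun p => if ((p : ℕ) : ZMod m) = 1 then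
    (Spec.primeCount F p : ℝ) * (p : ℝ) ^ (-s) else 0 with hh₁
  have hfs : Summable f := summable_primeCount F₀ hs1
  have hFs : Summable (fun p : Nat.Primes => (Spec.primeCount F p : ℝ) * (p : ℝ) ^ (-s)) :=
    summable_primeCount F hs1
  have hh₁nn : ∀ p, 0 ≤ h₁ p := by
    intro p
    simp only [hh₁]
    split_ifs
    · exact mul_nonneg (Nat.cast_nonneg _) (rpow_neg_nonneg p s)
    · exact le_rfl
  have hh₁s : Summable h₁ := by
    refine Summable.of_nonneg_of_le hh₁nn (fun p => ?_) hFs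
    simp only [hh₁]
    split_ifs
    · exact le_rfl
    · exact mul_nonneg (Nat.cast_nonneg _) (rpow_neg_nonneg p s)
  have hes := summable_excTerm F₀ B
  have hle : ∀ p, f p ≤ (n : ℝ) * h₁ p + excTerm F₀ B p := by
    intro p
    by_cases hpB : (p : ℕ) ∈ B
    · have h1 : f p ≤ (Spec.primeCount F₀ p : ℝ) := by
        simp only [hf]
        calc (Spec.primeCount F₀ p : ℝ) * ((p : ℕ) : ℝ) ^ (-s)
            ≤ (Spec.primeCount F₀ p : ℝ) * 1 :=
              mul_le_mul_of_nonneg_left (rpow_neg_le_one p (by linarith)) (Nat.cast_nonneg _)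
          _ = _ := mul_one _
      have h2 : excTerm F₀ B p = (Spec.primeCount F₀ p : ℝ) := by
        simp only [excTerm]; rw [if_pos hpB]
      have h3 : 0 ≤ (n : ℝ) * h₁ p := mul_nonneg hn0.le (hh₁nn p)
      linarith
    · have h2 : excTerm F₀ B p = 0 := by
        simp only [excTerm]; rw [if_neg hpB]
      have h3 := hsplit p p.2 hpB
      have h4 : f p = (n : ℝ) * h₁ p := by
        simp only [hf, hh₁, h3]
        split_ifs
        · push_cast; ring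
        · simp
      linarith
  have hsum_le : ∑' p, f p ≤ (n : ℝ) * ∑' p, h₁ p + ∑' p, excTerm F₀ B p := by
    calc ∑' p, f p ≤ ∑' p, ((n : ℝ) * h₁ p + excTerm F₀ B p) :=
          hfs.tsum_le_tsum hle ((hh₁s.mul_left _).add hes)
      _ = (n : ℝ) * ∑' p, h₁ p + ∑' p, excTerm F₀ B p := by
          rw [(hh₁s.mul_left _).tsum_add hes, tsum_mul_left]
  have hZ' := (abs_le.mp (hC₀ s hs1 hs2)).1
  have key : Real.log (1 / (s - 1)) - (C₀ + ∑' p, excTerm F₀ B p) ≤ (n : ℝ) * ∑' p, h₁ p := by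
    have : (∑' p : Nat.Primes, (Spec.primeCount F₀ p : ℝ) * (p : ℝ) ^ (-s)) = ∑' p, f p := rfl
    linarith
  have := mul_le_mul_of_nonneg_left key (inv_nonneg.mpr hn0.le)
  rw [← mul_assoc, inv_mul_cancel₀ hn0.ne', one_mul, mul_sub] at this
  exact this

end split

/-! ### The glue -/

lemma char_ne_one_of_mem_zpowers {m : ℕ} [NeZero m] (χ : DirichletCharacter ℂ m)
    (a u : (ZMod m)ˣ) (hu : u ∈ Subgroup.zpowers a) (hχ : χ ((u : (ZMod m)ˣ) : ZMod m) ≠ 1) :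
    χ ((a : (ZMod m)ˣ) : ZMod m) ≠ 1 := by
  intro ha
  apply hχ
  obtain ⟨k, rfl⟩ := Subgroup.mem_zpowers_iff.mp hu
  have h1 : χ.toUnitHom a = 1 := by
    apply Units.ext
    rw [MulChar.coe_toUnitHom]
    exact ha
  have h2 : χ.toUnitHom (a ^ k) = 1 := by rw [map_zpow, h1, one_zpow]
  rw [← MulChar.coe_toUnitHom χ (a ^ k), h2, Units.val_one]

/-- **GLUE**: helper221's `cyc_of_pieces`. -/
theorem cyc_of_pieces (hEP : H221.EulerProductStatement) (hDEG : H221.TwistedPrimeSumStatement)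
    (hABS : H221.AbstractDirichletStatement) (hALG : H221.CycAlgStatement)
    (hZ : Spec.PrimeSumStatement) (hA : Spec.CountStatement) (hD : Spec.FrobStatement)
    (hM : Spec.FrobFiniteStatement) (hAN : Spec.DirichletLimitStatement) :
    Spec.CycStatement := by
  intro L _ _ _ m ζ hm hζ g hg S
  have : NeZero m := ⟨hm.ne'⟩
  obtain ⟨hORD, B, hSUPP, hSPLIT, hNT, hFIN⟩ := hALG hA hD hM L m ζ hζ g hg
  set a : (ZMod m)ˣ := hζ.autToPow ℚ g with ha
  have hn : 0 < orderOf g := orderOf_pos g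
  have hres := hABS m (fun p => (Spec.primeCount (H221.fixM L g) p : ℝ))
    (fun p => Nat.cast_nonneg _)
    (fun s hs1 _ => summable_primeCount (H221.fixM L g) hs1)
    (Subgroup.zpowers a)
    ⟨B, fun p hpB hcp => hSUPP p p.2 hpB (by exact_mod_cast hcp)⟩
    (hZ (H221.fixM L g))
    (by
      rw [hORD]
      exact split_lower (H221.fixBot L) (H221.fixM L g) m hZ (orderOf g) hn B hSPLIT)
    (by
      intro χ ⟨u, hu, hχu⟩
      have hχa := char_ne_one_of_mem_zpowers χ a u hu hχu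
      obtain ⟨I, hI0, hI1⟩ := hNT χ hχa
      exact exists_logEuler_data (H221.fixM L g) m χ hEP (hAN (H221.fixM L g) m χ ⟨I, hI0, hI1⟩))
    a (Subgroup.mem_zpowers a) (S ∪ B)
  obtain ⟨p, hpSB, hpa, hcp⟩ := hres
  have hpS : (p : ℕ) ∉ S := fun h => hpSB (Finset.mem_union_left _ h)
  have hpB : (p : ℕ) ∉ B := fun h => hpSB (Finset.mem_union_right _ h)
  obtain ⟨P, hP, hpP, hI, hF⟩ := hFIN p p.2 hpB (by exact_mod_cast hcp) hpa
  exact ⟨p, P, p.2, hpS, hP, hpP, hI, hF⟩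

end

end Fermat.Agent.Lib.Cheb.H56
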