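import Fermat.Agent.Lib.Cheb.SpecQ2
import Fermat.Agent.Lib.Cheb.FrobFinite
import Fermat.Agent.Lib.Cheb.H44.DirichletLimit
import Fermat.Agent.Lib.Cheb.H163.TwistEuler
import Fermat.Agent.Lib.Cheb.H221.CycAlg
import Fermat.Agent.Lib.Cheb.H56.CycGlue
import Fermat.Agent.Lib.Cheb.H56.AbsDirichlet

/-!
# CHEB Tier 3 (CHEB-Q), pieces Q-ABS and Q-SUM (row-lead helper56)

* `absDirichletQ_statement : SpecQ.AbstractDirichletQStatement`
* `cycSum : SpecQ.CycSumStatement` (unconditional: all inputs are on main)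
-/

set_option autoImplicit false
set_option linter.unusedVariables false

open NumberField IsDedekindDomain Filter Topology
open Fermat.Agent.Lib.Cheb

namespace Fermat.Agent.Lib.Cheb.H56

/-- **Q-ABS**. -/
theorem absDirichletQ_statement : SpecQ.AbstractDirichletQStatement :=
  fun m _ c hc hsum A hS hZ hLow hL a ha => absDirichletQ m c hc hsum A hS hZ hLow hL a ha

/-- **ABS** (third copy). -/
theorem absDirichlet_statement : H221.AbstractDirichletStatement :=
  fun m _ c hc hsum A hS hZ hLow hL a ha S => absDirichlet m c hc hsum A hS hZ hLow hL a ha S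

/-- Q-SUM from the pieces. -/
theorem cycSum_of_pieces (hEP : H221.EulerProductStatement) (hALG : H221.CycAlgStatement)
    (hZ : Spec.PrimeSumStatement) (hA : Spec.CountStatement) (hD : Spec.FrobStatement)
    (hM : Spec.FrobFiniteStatement) (hAN : Spec.DirichletLimitStatement) :
    SpecQ.CycSumStatement := by
  intro L _ _ _ m _ ζ hζ g hg
  obtain ⟨hORD, B, hSUPP, hSPLIT, hNT, hFIN⟩ := hALG hA hD hM L m ζ hζ g hg
  set a : (ZMod m)ˣ := hζ.autToPow ℚ g with ha
  have hn : 0 < orderOf g := orderOf_pos g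
  obtain ⟨C, hC⟩ := absDirichletQ m (fun p => (Spec.primeCount (H221.fixM L g) p : ℝ))
    (fun p => Nat.cast_nonneg _)
    (fun s hs1 _ => summable_primeCount (H221.fixM L g) hs1)
    (Subgroup.zpowers a)
    ⟨B, fun p hpB hcp => hSUPP p p.2 hpB (by exact_mod_cast hcp)⟩
    (hZ (H221.fixM L g))
    (by
      rw [hORD]
      exact split_lower (H221.fixBot L) (H221.fixM L g) m hZ (orderOf g) hn B hSPLIT)
    (by
      intro χ ⟨u, hu, hχu⟩
      have hχa := char_ne_one_of_mem_zpowers χ a u hu hχu
      obtain ⟨I, hI0, hI1⟩ := hNT χ hχa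
      exact exists_logEuler_data (H221.fixM L g) m χ hEP (hAN (H221.fixM L g) m χ ⟨I, hI0, hI1⟩))
    a (Subgroup.mem_zpowers a)
  refine ⟨C, fun s hs1 hs2 => ⟨summable_primeCount (H221.fixM L g) hs1, ?_⟩⟩
  have := hC s hs1 hs2
  rw [hORD] at this
  exact this

/-- **Q-SUM**, unconditional. -/
theorem cycSum : SpecQ.CycSumStatement :=
  cycSum_of_pieces H163.eulerProduct H221.cycAlg H761.primeSum_statement H764.count
    H943.frobStatement frobFinite H44.dirichletLimit

end Fermat.Agent.Lib.Cheb.H56
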