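import Fermat.Agent.Lib.Cheb.H993.QCyc
import Fermat.Agent.Lib.Cheb.H56.QSum
import Fermat.Agent.Lib.Cheb.H56.QAlg

/-!
# CHEB Tier 3 (CHEB-Q): the quantitative cyclotomic case, unconditional (row-lead helper56)

`cycDensity : SpecQ.CycDensityStatement`, assembled from Q-SUM (`H56.cycSum`), Q-ALG
(`H56.cycCount`) and the glue Q-CYC (`H993.cycDensityGlue`).
-/

set_option autoImplicit false

namespace Fermat.Agent.Lib.Cheb.H56

/-- **Q-CYC**: the Frobenius primes of `g` have lower Dirichlet density `≥ |C_g| / |G|` in the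
cyclotomic situation (`⟨g⟩` acting faithfully on a root of unity). -/
theorem cycDensity : SpecQ.CycDensityStatement :=
  H993.cycDensityGlue cycSum cycCount

end Fermat.Agent.Lib.Cheb.H56
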